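import Fermat.Agent.Lib.RR.Weil

set_option autoImplicit false

/-!
# S17, seat G0: genus `0` implies `Pic⁰` trivial

For a function field `F / K` satisfying the standing hypotheses `IsRRField K F` of the
Riemann–Roch library, if `genusFF K F = 0` then every divisor of degree `0` is principal:
by Riemann–Roch `ℓ(D) = deg D + 1 - g = 1`, so there is `f ≠ 0` with `div f + D ≥ 0`, and a
nonnegative divisor of degree `0` is `0`.
-/

noncomputable section

open AlgebraicCurve

namespace Fermat.Agent.S17

open Fermat.Agent.RR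

variable {K F : Type*} [Field K] [Field F] [Algebra K F]

/-- a divisor of degree `> 2g - 2 ` and `≥ g` has a nonzero section. -/
theorem exists_ne_zero_mem_riemannRochSpace (h : IsRRField K F) {D : Divisor K F}
    (hD : (genusFF K F : ℤ) ≤ Divisor.degree D) :
    ∃ f : F, f ≠ 0 ∧ f ∈ riemannRochSpace D := by
  have hri := riemann_inequality h D
  have hpos : 0 < ell D := by
    have : (0 : ℤ) < (ell D : ℤ) := by linarith
    exact_mod_cast this
  have := finite_riemannRochSpace h D
  rw [ell_def, Module.finrank_pos_iff_exists_ne_zero] at hpos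
  obtain ⟨x, hx⟩ := hpos
  exact ⟨x.1, fun h0 => hx (Subtype.ext h0), x.2⟩

/-- in genus `0` every divisor of degree `0` is principal. -/
theorem isPrincipal_of_genus_zero (h : IsRRField K F) (hg : genusFF K F = 0)
    {D : Divisor K F} (hD : Divisor.degree D = 0) : Divisor.IsPrincipal D := by
  obtain ⟨f, hf, hfD⟩ := exists_ne_zero_mem_riemannRochSpace h (D := D) (by rw [hg, hD]; simp)
  have hdiv := divOf_eq_neg_of_mem_of_degree_eq_zero h hf hfD hD
  refine ⟨f⁻¹, inv_ne_zero hf, fun v => ?_⟩
  rw [v.ord_inv, ← divOf_apply h f v, hdiv, Finsupp.neg_apply, neg_neg]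

/-- **G0**: genus `0` implies that `Pic⁰` is trivial. -/
theorem subsingleton_pic0_of_genus_zero (h : IsRRField K F) (hg : genusFF K F = 0) :
    Subsingleton (Pic0 K F) := by
  refine ⟨fun x y => ?_⟩
  have key : ∀ z : Pic0 K F, z = 0 := by
    intro z
    obtain ⟨D, rfl⟩ := Pic0.mk_surjective z
    refine (QuotientAddGroup.eq_zero_iff D).mpr ?_
    rw [AddSubgroup.mem_addSubgroupOf]
    exact isPrincipal_of_genus_zero h hg (Divisor.mem_degZero.mp D.2)
  rw [key x, key y]

end Fermat.Agent.S17
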