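import Fermat.Agent.Lib.RR.Weil

set_option autoImplicit false

/-!
# S17, seat MULT: `L(aP) · L(bP) = L((a+b)P)` for `a, b ≥ 4g`

For a function field `F / K` satisfying `IsRRField K F`, a place `P` and `a, b ≥ 4g`
(`g = genusFF K F`), the products `f f'` with `f ∈ L(aP)`, `f' ∈ L(bP)` span `L((a+b)P)`.

Proof: by Riemann–Roch every `n ≥ 2g` is a pole order at `P` (there is `f ∈ L(nP)` with
`ord_P f = -n`).  `L(nP) ⊆ span` is shown by induction on `n`: it is clear for `n ≤ a`; for
`a ≤ n < a + b` write `n + 1 = i + j` with `2g ≤ i ≤ a`, `2g ≤ j ≤ b`, then `f_i f_j` has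
exact pole order `n + 1` at `P`, and `L((n+1)P) = L(nP) + K f_i f_j`.
-/

noncomputable section

open AlgebraicCurve

namespace Fermat.Agent.S17

open Fermat.Agent.RR

variable {K F : Type*} [Field K] [Field F] [Algebra K F]

theorem mult_nsmul_single_apply_self (P : Place K F) (n : ℕ) :
    (n • (Finsupp.single P (1 : ℤ) : Divisor K F)) P = (n : ℤ) := by
  rw [Finsupp.smul_apply, Finsupp.single_eq_same]
  simp

theorem mult_nsmul_single_apply_of_ne (P : Place K F) (n : ℕ) {v : Place K F} (hv : v ≠ P) :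
    (n • (Finsupp.single P (1 : ℤ) : Divisor K F)) v = 0 := by
  rw [Finsupp.smul_apply, Finsupp.single_eq_of_ne hv]
  simp

/-- membership in `L(nP)`. -/
theorem mult_mem_iff (P : Place K F) (n : ℕ) {f : F} (hf : f ≠ 0) :
    f ∈ riemannRochSpace (n • (Finsupp.single P (1 : ℤ) : Divisor K F)) ↔
      -(n : ℤ) ≤ P.ord f ∧ ∀ v : Place K F, v ≠ P → 0 ≤ v.ord f := by
  rw [mem_riemannRochSpace_iff]
  constructor
  · intro hmem
    refine ⟨?_, fun v hv => ?_⟩
    · have := (hmem P).resolve_left hf
      rwa [mult_nsmul_single_apply_self] at this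
    · have := (hmem v).resolve_left hf
      rwa [mult_nsmul_single_apply_of_ne P n hv, neg_zero] at this
  · rintro ⟨h1, h2⟩ v
    right
    by_cases hv : v = P
    · subst hv
      rwa [mult_nsmul_single_apply_self]
    · rw [mult_nsmul_single_apply_of_ne P n hv, neg_zero]
      exact h2 v hv

theorem mult_nsmul_mono (P : Place K F) {m n : ℕ} (hmn : m ≤ n) :
    riemannRochSpace (m • (Finsupp.single P (1 : ℤ) : Divisor K F)) ≤
      riemannRochSpace (n • (Finsupp.single P (1 : ℤ) : Divisor K F)) := by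
  apply riemannRochSpace_mono
  rw [Finsupp.le_def]
  intro v
  by_cases hv : v = P
  · subst hv
    rw [mult_nsmul_single_apply_self, mult_nsmul_single_apply_self]
    exact_mod_cast hmn
  · rw [mult_nsmul_single_apply_of_ne P m hv, mult_nsmul_single_apply_of_ne P n hv]

theorem mult_one_mem (P : Place K F) (n : ℕ) :
    (1 : F) ∈ riemannRochSpace (n • (Finsupp.single P (1 : ℤ) : Divisor K F)) := by
  rw [mult_mem_iff P n one_ne_zero]
  refine ⟨?_, fun v _ => ?_⟩
  · rw [Place.ord_one]
    simp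
  · rw [Place.ord_one]

/-- products land in `L((a+b)P)`. -/
theorem mult_mul_mem (P : Place K F) (a b : ℕ) {f f' : F}
    (hf : f ∈ riemannRochSpace (a • (Finsupp.single P (1 : ℤ) : Divisor K F)))
    (hf' : f' ∈ riemannRochSpace (b • (Finsupp.single P (1 : ℤ) : Divisor K F))) :
    f * f' ∈ riemannRochSpace ((a + b) • (Finsupp.single P (1 : ℤ) : Divisor K F)) := by
  rcases eq_or_ne f 0 with rfl | hf0
  · rw [zero_mul]
    exact Submodule.zero_mem _
  rcases eq_or_ne f' 0 with rfl | hf'0
  · rw [mul_zero]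
    exact Submodule.zero_mem _
  rw [mult_mem_iff P a hf0] at hf
  rw [mult_mem_iff P b hf'0] at hf'
  rw [mult_mem_iff P (a + b) (mul_ne_zero hf0 hf'0)]
  refine ⟨?_, fun v hv => ?_⟩
  · rw [P.ord_mul hf0 hf'0]
    push_cast
    linarith [hf.1, hf'.1]
  · rw [v.ord_mul hf0 hf'0]
    linarith [hf.2 v hv, hf'.2 v hv]

/-- every `n ≥ 2g` is a pole order at `P`. -/
theorem mult_exists_pole_order (h : IsRRField K F) (P : Place K F) (n : ℕ)
    (hn : 2 * genusFF K F ≤ n) :
    ∃ f : F, f ≠ 0 ∧ f ∈ riemannRochSpace (n • (Finsupp.single P (1 : ℤ) : Divisor K F)) ∧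
      P.ord f = -(n : ℤ) := by
  set D : Divisor K F := n • (Finsupp.single P (1 : ℤ) : Divisor K F) - Finsupp.single P 1
    with hDdef
  have hDP : D + Finsupp.single P 1 = n • (Finsupp.single P (1 : ℤ) : Divisor K F) := by
    rw [hDdef, sub_add_cancel]
  have hdegn : Divisor.degree (n • (Finsupp.single P (1 : ℤ) : Divisor K F)) = (n : ℤ) := by
    rw [map_nsmul, degree_single_one h]
    simp
  have hdegD : Divisor.degree D = (n : ℤ) - 1 := by
    rw [hDdef, map_sub, hdegn, degree_single_one h]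
  have hn' : (2 : ℤ) * (genusFF K F : ℤ) ≤ (n : ℤ) := by exact_mod_cast hn
  have h1 := ell_of_degree_gt h (D := D) (by rw [hdegD]; linarith)
  have h2 := ell_of_degree_gt h (D := D + Finsupp.single P 1) (by rw [hDP, hdegn]; linarith)
  have hell : ell (D + Finsupp.single P 1) = ell D + 1 := by
    have : (ell (D + Finsupp.single P 1) : ℤ) = (ell D : ℤ) + 1 := by
      rw [h1, h2, hDP, hdegn, hdegD]
      ring
    exact_mod_cast this
  obtain ⟨f, hf, hfD⟩ := (ell_add_single_eq_iff h D P).mp hell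
  obtain ⟨hf0, hord⟩ := ord_eq_of_mem_add_single_of_not_mem hf hfD
  refine ⟨f, hf0, hDP ▸ hf, ?_⟩
  rw [hord, hDdef, Finsupp.sub_apply, mult_nsmul_single_apply_self, Finsupp.single_eq_same]
  ring

/-- the set of products. -/
def multProdSet (P : Place K F) (a b : ℕ) : Set F :=
  {x | ∃ f ∈ riemannRochSpace (a • (Finsupp.single P (1 : ℤ) : Divisor K F)),
    ∃ f' ∈ riemannRochSpace (b • (Finsupp.single P (1 : ℤ) : Divisor K F)), x = f * f'}

theorem mult_span_le (P : Place K F) (a b : ℕ) :
    Submodule.span K (multProdSet P a b) ≤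
      riemannRochSpace ((a + b) • (Finsupp.single P (1 : ℤ) : Divisor K F)) := by
  rw [Submodule.span_le]
  rintro x ⟨f, hf, f', hf', rfl⟩
  exact mult_mul_mem P a b hf hf'

/-- the induction: `L(nP) ⊆ span` for all `n ≤ a + b`. -/
theorem mult_le_span_aux (h : IsRRField K F) (P : Place K F) (a b : ℕ)
    (ha : 4 * genusFF K F ≤ a) (hb : 4 * genusFF K F ≤ b) (n : ℕ) (hn : n ≤ a + b) :
    riemannRochSpace (n • (Finsupp.single P (1 : ℤ) : Divisor K F)) ≤
      Submodule.span K (multProdSet P a b) := by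
  induction n with
  | zero =>
    intro f hf
    refine Submodule.subset_span ⟨f, mult_nsmul_mono P (Nat.zero_le a) hf, 1, mult_one_mem P b, ?_⟩
    rw [mul_one]
  | succ n ih =>
    by_cases hna : n + 1 ≤ a
    · intro f hf
      refine Submodule.subset_span ⟨f, mult_nsmul_mono P hna hf, 1, mult_one_mem P b, ?_⟩
      rw [mul_one]
    · push Not at hna
      have ih' := ih (by omega)
      -- choose `j = max (n + 1 - a) (2g)`, `i = n + 1 - j`
      obtain ⟨i, j, hij, hi2, hia, hj2, hjb⟩ :
          ∃ i j : ℕ, i + j = n + 1 ∧ 2 * genusFF K F ≤ i ∧ i ≤ a ∧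
            2 * genusFF K F ≤ j ∧ j ≤ b := by
        refine ⟨n + 1 - max (n + 1 - a) (2 * genusFF K F), max (n + 1 - a) (2 * genusFF K F),
          ?_, ?_, ?_, ?_, ?_⟩ <;> omega
      obtain ⟨fi, hfi0, hfi, hordi⟩ := mult_exists_pole_order h P i hi2
      obtain ⟨fj, hfj0, hfj, hordj⟩ := mult_exists_pole_order h P j hj2
      have hg0 : fi * fj ≠ 0 := mul_ne_zero hfi0 hfj0
      have hgmem : fi * fj ∈
          riemannRochSpace ((n + 1) • (Finsupp.single P (1 : ℤ) : Divisor K F)) := by
        have := mult_mul_mem P i j hfi hfj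
        rwa [hij] at this
      have hgord : P.ord (fi * fj) = -((n : ℤ) + 1) := by
        rw [P.ord_mul hfi0 hfj0, hordi, hordj]
        have : ((i : ℤ) + (j : ℤ)) = (n : ℤ) + 1 := by exact_mod_cast hij
        linarith
      have hgnot : fi * fj ∉
          riemannRochSpace (n • (Finsupp.single P (1 : ℤ) : Divisor K F)) := by
        intro hmem
        rw [mult_mem_iff P n hg0] at hmem
        have := hmem.1
        rw [hgord] at this
        linarith
      have hsucc : (n + 1) • (Finsupp.single P (1 : ℤ) : Divisor K F) =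
          n • (Finsupp.single P (1 : ℤ) : Divisor K F) + Finsupp.single P 1 := succ_nsmul _ _
      rw [hsucc] at hgmem ⊢
      refine (riemannRochSpace_add_single_le h _ P hgmem hgnot).trans (sup_le ih' ?_)
      rw [Submodule.span_le, Set.singleton_subset_iff]
      exact Submodule.subset_span
        ⟨fi, mult_nsmul_mono P hia hfi, fj, mult_nsmul_mono P hjb hfj, rfl⟩

/-- **MULT**: `L(aP) · L(bP) = L((a+b)P)` for `a, b ≥ 4g`. -/
theorem span_mul_riemannRochSpace_eq (h : IsRRField K F) (P : Place K F) (a b : ℕ)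
    (ha : 4 * genusFF K F ≤ a) (hb : 4 * genusFF K F ≤ b) :
    Submodule.span K {x | ∃ f ∈ riemannRochSpace (a • Finsupp.single P (1 : ℤ)),
        ∃ f' ∈ riemannRochSpace (b • Finsupp.single P (1 : ℤ)), x = f * f'} =
      riemannRochSpace ((a + b) • Finsupp.single P (1 : ℤ)) :=
  le_antisymm (mult_span_le P a b) (mult_le_span_aux h P a b ha hb (a + b) le_rfl)

end Fermat.Agent.S17
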